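import Fermat.Agent.S18.H576.Transport
import Fermat.Agent.S18.H264.SepModular
import Fermat.Agent.S18.H602.BaseChange
import Fermat.Agent.S28.H867.Core
import Fermat.Agent.S28.H867.Integral
import Fermat.Agent.S28.H807.Analytic
import Fermat.Agent.S28.H25.Theta

/-!
# S18 / node_mod, part G-SEP (helper576): the field `separable` of `Alg.GoodModel` for the
concrete objects of `Mod/Defs.lean`, coordinate `x = j`

    theorem field_separable (M) [NeZero M] (hℓ : ℓ.Prime) (hℓM : ¬ ℓ ∣ M) (hA : A.LiesOverPrime ℓ)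
        (E) [FiniteDimensional ℚ E] {w} (hwm : w ∈ Rc M A E)
        (hwg : ∀ r ∈ Rc M A E, r⁻¹ ∉ Rc M A E → r * w⁻¹ ∈ Rc M A E) :
        ∀ f ∈ VcSet M A E, ∃ P : Polynomial (Om M),
          (∀ i, P.coeff i ∈ Alg.polyRing (Rc M A E) (jOm M)) ∧ P.eval f * w⁻¹ ∈ VcSet M A E ∧
          (Polynomial.derivative P).eval f ≠ 0 ∧ ((Polynomial.derivative P).eval f)⁻¹ ∈ VcSet M A E

Proof: `f = φ V₁ / φ V₂` (Transport), `f̄ := ρ V₁ / ρ V₂ ∈ F_κ` (H516 `red_mem_of_incl_mem`, S28
`CoreData` over `κ = κ_E`), `F_κ` is algebraic over `κ(j̄)` (S28 H867 `isIntegral_jd`), so there is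
`P̄ ∈ κ[X][Y]` with `P̄(j̄, f̄) = 0`, `∂P̄/∂Y (j̄, f̄) ≠ 0` (helper264, `κ` perfect); lift `P̄` to
`R_E[X][Y]`, homogenise in `(V₁, V₂)`.
-/

set_option autoImplicit false

noncomputable section

namespace Fermat.Agent.S18.H576

open ModularCurve AlgebraicCurve HahnSeries Fermat.Agent.S18 Fermat.Agent.S18.Mod
open Fermat.Agent.S18.H602 (RE mem_RE toA)

section Homog

variable {S T : Type*} [CommRing S] [CommRing T]

/-- Homogenisation `∑_{i ≤ d} P_i a^i b^{d-i}`. -/
def homog (d : ℕ) (P : Polynomial S) (a b : S) : S :=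
  ∑ i ∈ Finset.range (d + 1), P.coeff i * a ^ i * b ^ (d - i)

theorem map_homog (ψ : S →+* T) (d : ℕ) (P : Polynomial S) (a b : S) :
    ψ (homog d P a b) = homog d (P.map ψ) (ψ a) (ψ b) := by
  simp only [homog, map_sum, map_mul, map_pow, Polynomial.coeff_map]

theorem homog_eq (d : ℕ) (P : Polynomial S) {g a b : S} (h : g * b = a)
    (hd : P.natDegree ≤ d) : homog d P a b = b ^ d * P.eval g := by
  rw [Polynomial.eval_eq_sum_range' (Nat.lt_succ_of_le hd), Finset.mul_sum]
  refine Finset.sum_congr rfl fun i hi => ?_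
  have hi' : i ≤ d := Nat.lt_succ_iff.mp (Finset.mem_range.mp hi)
  have hb : b ^ d = b ^ i * b ^ (d - i) := by rw [← _root_.pow_add, Nat.add_sub_cancel' hi']
  rw [← h, hb, mul_pow]
  ring

end Homog

section Residue

variable {A : ValuationSubring Qb} {E : IntermediateField ℚ Qb}

theorem charP_residue_RE {ℓ : ℕ} (hℓ : ℓ.Prime) (hA : A.LiesOverPrime ℓ) :
    CharP (IsLocalRing.ResidueField (RE A E)) ℓ :=
  (CharP.charP_iff_prime_eq_zero hℓ).mpr (natCast_residue_RE_eq_zero hA)

theorem perfectField_residue_RE {ℓ : ℕ} (hℓ : ℓ.Prime) (hA : A.LiesOverPrime ℓ) :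
    PerfectField (IsLocalRing.ResidueField (RE A E)) := by
  haveI : Fact ℓ.Prime := ⟨hℓ⟩
  haveI : CharP (IsLocalRing.ResidueField (RE A E)) ℓ := charP_residue_RE hℓ hA
  letI : Algebra (ZMod ℓ) (IsLocalRing.ResidueField (RE A E)) := ZMod.algebra _ ℓ
  haveI : Algebra.IsAlgebraic (ZMod ℓ) (IsLocalRing.ResidueField (RE A E)) := by
    refine ⟨fun x => ?_⟩
    obtain ⟨r', rfl⟩ := IsLocalRing.residue_surjective x
    obtain ⟨P, hP0, hP⟩ := exists_polynomial_residue r' hℓ
    refine ⟨P.map (Int.castRingHom (ZMod ℓ)), hP0, ?_⟩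
    rw [Polynomial.aeval_def, Polynomial.eval₂_map]
    have h1 : (algebraMap (ZMod ℓ) (IsLocalRing.ResidueField (RE A E))).comp
        (Int.castRingHom (ZMod ℓ)) =
        (IsLocalRing.residue (RE A E)).comp (Int.castRingHom (RE A E)) := RingHom.ext_int _ _
    rw [h1, ← Polynomial.hom_eval₂, hP, map_zero]
  exact Algebra.IsAlgebraic.perfectField (ZMod ℓ)

end Residue

section Algebraic

/-- Every element of `F_κ = κ(j(q^d) : d ∣ N)` is algebraic over `κ(j)` (any field `κ`). -/
theorem isAlgebraic_adjoin_jqModC_of_mem_fullC (κ : Type*) [Field κ] (N : ℕ)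
    {y : LaurentSeries κ} (hy : y ∈ modularFunctionFieldFullC κ N) :
    IsAlgebraic (IntermediateField.adjoin κ {jqModC κ}) y := by
  have hle : modularFunctionFieldFullC κ N ≤
      (algebraicClosure (S28.jField κ) (LaurentSeries κ)).restrictScalars κ := by
    rw [modularFunctionFieldFullC, IntermediateField.adjoin_le_iff]
    rintro x ⟨d, hd, -, rfl⟩
    show _ ∈ algebraicClosure (S28.jField κ) (LaurentSeries κ)
    rw [mem_algebraicClosure_iff']
    have := S28.H867.isIntegral_jd κ d (NeZero.ne d)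
      (fun p hp _ _ => S28.H807.nonempty_modPolyData p hp)
    rwa [S28.H867.jd_eq] at this
  have h := hle hy
  exact mem_algebraicClosure_iff.mp h

end Algebraic

section Main

variable {M : ℕ} {A : ValuationSubring Qb} {E : IntermediateField ℚ Qb}

theorem jqModC_mem_OE : jqModC (RE A E) ∈ OE M A E := by
  rw [mem_OE, coeffMap_jqModC, H602.laurentBaseChange_full_eq]
  exact jqModC_mem_full E M

/-- `j` as an integral series. -/
def JE (M : ℕ) (A : ValuationSubring Qb) (E : IntermediateField ℚ Qb) : OE M A E :=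
  ⟨jqModC (RE A E), jqModC_mem_OE⟩

theorem phi_JE : phi M A E (JE M A E) = jOm M := by
  apply Subtype.ext
  show incQ A E (jqModC (RE A E)) = coeffEmb Qb (qExpand ℚ 1 jq)
  rw [incQ_apply, coeffMap_jqModC, coeffMap_jqModC, H602.coeffEmb_qExpand_jq, qExpand_one_apply]

theorem rho_JE : rho M A E (JE M A E) = jqModC (IsLocalRing.ResidueField (RE A E)) := by
  rw [rho_apply]
  exact coeffMap_jqModC _

theorem C_mem_OE (r : RE A E) : HahnSeries.C (Γ := ℤ) r ∈ OE M A E := by
  rw [mem_OE, H516.coeffMap_C]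
  exact C_mem_FE M _

/-- Constants as integral series. -/
def CE (M : ℕ) (A : ValuationSubring Qb) (E : IntermediateField ℚ Qb) : RE A E →+* OE M A E :=
  (HahnSeries.C (Γ := ℤ) (R := RE A E)).codRestrict (OE M A E) C_mem_OE

theorem phi_CE (r : RE A E) : phi M A E (CE M A E r) = iotaR M A E r := by
  apply Subtype.ext
  show incQ A E (HahnSeries.C r) = _
  rw [incQ_apply, H516.coeffMap_C, H516.coeffMap_C, iotaR_apply, coe_iota_single,
    HahnSeries.C_apply]
  rfl

theorem rho_CE (r : RE A E) :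
    rho M A E (CE M A E r) = HahnSeries.C (IsLocalRing.residue (RE A E) r) := by
  rw [rho_apply]
  exact H516.coeffMap_C _ r

/-- Evaluation `R_E[X] → O_E`, `X ↦ j`. -/
def evE (M : ℕ) (A : ValuationSubring Qb) (E : IntermediateField ℚ Qb) :
    Polynomial (RE A E) →+* OE M A E :=
  Polynomial.eval₂RingHom (CE M A E) (JE M A E)

theorem phi_comp_evE :
    (phi M A E).comp (evE M A E) = Polynomial.eval₂RingHom (iotaR M A E) (jOm M) := by
  refine Polynomial.ringHom_ext (fun r => ?_) ?_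
  · simp only [RingHom.comp_apply, evE, Polynomial.coe_eval₂RingHom, Polynomial.eval₂_C]
    exact phi_CE r
  · simp only [RingHom.comp_apply, evE, Polynomial.coe_eval₂RingHom, Polynomial.eval₂_X]
    exact phi_JE

theorem rho_comp_evE :
    (rho M A E).comp (evE M A E) =
      ((Polynomial.aeval (jqModC (IsLocalRing.ResidueField (RE A E))) :
          Polynomial (IsLocalRing.ResidueField (RE A E)) →ₐ[IsLocalRing.ResidueField (RE A E)]
            LaurentSeries (IsLocalRing.ResidueField (RE A E))).toRingHom).comp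
        (Polynomial.mapRingHom (IsLocalRing.residue (RE A E))) := by
  refine Polynomial.ringHom_ext (fun r => ?_) ?_
  · simp only [RingHom.comp_apply, evE, Polynomial.coe_eval₂RingHom, Polynomial.eval₂_C,
      Polynomial.coe_mapRingHom, Polynomial.map_C, AlgHom.toRingHom_eq_coe, RingHom.coe_coe,
      Polynomial.aeval_C]
    rw [rho_CE, algebraMap_laurentSeries_eq_single, HahnSeries.C_apply]
  · simp only [RingHom.comp_apply, evE, Polynomial.coe_eval₂RingHom, Polynomial.eval₂_X,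
      Polynomial.coe_mapRingHom, Polynomial.map_X, AlgHom.toRingHom_eq_coe, RingHom.coe_coe,
      Polynomial.aeval_X]
    exact rho_JE

theorem eval₂_iotaR_mem_polyRing (g : Polynomial (RE A E)) :
    Polynomial.eval₂ (iotaR M A E) (jOm M) g ∈ Alg.polyRing (Rc M A E) (jOm M) := by
  rw [Polynomial.eval₂_eq_sum_range]
  refine sum_mem fun i _ => ?_
  have h1 : iotaR M A E (g.coeff i) ∈ Alg.polyRing (Rc M A E) (jOm M) :=
    Subring.subset_closure (Set.mem_union_left _ (iotaR_mem_Rc _))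
  have h2 : jOm M ∈ Alg.polyRing (Rc M A E) (jOm M) :=
    Subring.subset_closure (Set.mem_union_right _ (Set.mem_singleton _))
  exact mul_mem h1 (pow_mem h2 _)

/-- **G-SEP** for the concrete objects, coordinate `j`. -/
theorem field_separable (M : ℕ) [NeZero M] {ℓ : ℕ} (hℓ : ℓ.Prime) (hℓM : ¬ ℓ ∣ M)
    {A : ValuationSubring Qb} (hA : A.LiesOverPrime ℓ) (E : IntermediateField ℚ Qb)
    {w : Om M} (hwm : w ∈ Rc M A E)
    (hwg : ∀ r ∈ Rc M A E, r⁻¹ ∉ Rc M A E → r * w⁻¹ ∈ Rc M A E) :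
    ∀ f ∈ VcSet M A E, ∃ P : Polynomial (Om M),
      (∀ i, P.coeff i ∈ Alg.polyRing (Rc M A E) (jOm M)) ∧ P.eval f * w⁻¹ ∈ VcSet M A E ∧
      (Polynomial.derivative P).eval f ≠ 0 ∧
      ((Polynomial.derivative P).eval f)⁻¹ ∈ VcSet M A E := by
  intro f hf
  haveI : Fact ℓ.Prime := ⟨hℓ⟩
  haveI : CharP (IsLocalRing.ResidueField (RE A E)) ℓ := charP_residue_RE hℓ hA
  haveI : PerfectField (IsLocalRing.ResidueField (RE A E)) := perfectField_residue_RE hℓ hA
  have core : S28.CoreData M (IsLocalRing.ResidueField (RE A E)) :=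
    S28.H867.coreData_of_inputs M ℓ hℓM (IsLocalRing.ResidueField (RE A E))
      (fun p hp _ _ => S28.H807.nonempty_modPolyData p hp)
      (fun p hp _ _ => S28.H807.nonempty_unitPolyData p hp)
      S28.H25.theta_identity
  obtain ⟨V₁, V₂, h2, h12⟩ := exists_rep_of_mem_VcSet hf
  set fbar : LaurentSeries (IsLocalRing.ResidueField (RE A E)) :=
    rho M A E V₁ * (rho M A E V₂)⁻¹ with hfbar
  have hfb : fbar * rho M A E V₂ = rho M A E V₁ := by
    rw [hfbar, mul_assoc, inv_mul_cancel₀ h2, mul_one]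
  have hmemF : ∀ V : OE M A E,
      rho M A E V ∈ modularFunctionFieldFullC (IsLocalRing.ResidueField (RE A E)) M := fun V =>
    H516.red_mem_of_incl_mem (RE A E) (IsLocalRing.residue (RE A E)) M core V.2
  have hfbarF : fbar ∈ modularFunctionFieldFullC (IsLocalRing.ResidueField (RE A E)) M :=
    mul_mem (hmemF V₁) (inv_mem (hmemF V₂))
  have halg := isAlgebraic_adjoin_jqModC_of_mem_fullC _ M hfbarF
  obtain ⟨Pbar, hP0, hP1⟩ :=
    H264.exists_bivariate_simple_root_jqModC (IsLocalRing.ResidueField (RE A E)) ℓ fbar halg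
  obtain ⟨Pt, hPt⟩ := Polynomial.map_surjective
    (Polynomial.mapRingHom (IsLocalRing.residue (RE A E)))
    (Polynomial.map_surjective _ IsLocalRing.residue_surjective) Pbar
  obtain ⟨PO, hPO⟩ : ∃ PO : Polynomial (OE M A E), PO = Pt.map (evE M A E) := ⟨_, rfl⟩
  obtain ⟨d, hd⟩ : ∃ d : ℕ, d = PO.natDegree := ⟨_, rfl⟩
  -- the two reductions of `PO`
  have hPOphi : PO.map (phi M A E) = Pt.map (Polynomial.eval₂RingHom (iotaR M A E) (jOm M)) := by
    rw [hPO, Polynomial.map_map, phi_comp_evE]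
  have hPOrho : PO.map (rho M A E) =
      Pbar.map ((Polynomial.aeval (jqModC (IsLocalRing.ResidueField (RE A E))) :
          Polynomial (IsLocalRing.ResidueField (RE A E)) →ₐ[IsLocalRing.ResidueField (RE A E)]
            LaurentSeries (IsLocalRing.ResidueField (RE A E))).toRingHom) := by
    rw [hPO, Polynomial.map_map, rho_comp_evE, ← Polynomial.map_map, hPt]
  have hdeg1 : ∀ {T : Type} [CommRing T] (ψ : OE M A E →+* T), (PO.map ψ).natDegree ≤ d :=
    fun ψ => hd ▸ Polynomial.natDegree_map_le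
  have hdeg2 : ∀ {T : Type} [CommRing T] (ψ : OE M A E →+* T),
      ((Polynomial.derivative PO).map ψ).natDegree ≤ d := fun ψ =>
    hd ▸ (Polynomial.natDegree_map_le).trans
      ((Polynomial.natDegree_derivative_le PO).trans (Nat.sub_le _ _))
  have hderrho : (Polynomial.derivative PO).map (rho M A E) =
      (Polynomial.derivative Pbar).map
        ((Polynomial.aeval (jqModC (IsLocalRing.ResidueField (RE A E))) :
          Polynomial (IsLocalRing.ResidueField (RE A E)) →ₐ[IsLocalRing.ResidueField (RE A E)]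
            LaurentSeries (IsLocalRing.ResidueField (RE A E))).toRingHom) := by
    rw [← Polynomial.derivative_map, hPOrho, Polynomial.derivative_map]
  -- the homogenised values
  obtain ⟨W, hW⟩ : ∃ W : OE M A E, W = homog d PO V₁ V₂ := ⟨_, rfl⟩
  obtain ⟨Z, hZ⟩ : ∃ Z : OE M A E, Z = homog d (Polynomial.derivative PO) V₁ V₂ := ⟨_, rfl⟩
  have hWphi : phi M A E W = (phi M A E V₂) ^ d * (PO.map (phi M A E)).eval f := by
    rw [hW, map_homog, homog_eq d _ h12 (hdeg1 _)]
  have hWrho : rho M A E W = 0 := by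
    rw [hW, map_homog, homog_eq d _ hfb (hdeg1 _), hPOrho,
      Polynomial.eval_map, hP0, mul_zero]
  have hZphi : phi M A E Z =
      (phi M A E V₂) ^ d * ((Polynomial.derivative PO).map (phi M A E)).eval f := by
    rw [hZ, map_homog, homog_eq d _ h12 (hdeg2 _)]
  have hZrho : rho M A E Z ≠ 0 := by
    rw [hZ, map_homog, homog_eq d _ hfb (hdeg2 _), hderrho, Polynomial.eval_map]
    exact mul_ne_zero (pow_ne_zero _ h2) hP1
  have hV₂d : rho M A E (V₂ ^ d) ≠ 0 := by
    rw [map_pow]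
    exact pow_ne_zero _ h2
  obtain ⟨W', hW'⟩ := exists_div_of_rho_eq_zero hwm hwg W hWrho
  have hZ0 : phi M A E Z ≠ 0 := by
    intro h0
    apply hZrho
    have : Z = 0 := phi_injective (by rw [h0, map_zero])
    rw [this, map_zero]
  have hder0 : ((Polynomial.derivative PO).map (phi M A E)).eval f ≠ 0 := by
    intro h0
    apply hZ0
    rw [hZphi, h0, mul_zero]
  refine ⟨PO.map (phi M A E), ?_, ?_, ?_, ?_⟩
  · intro i
    rw [hPOphi, Polynomial.coeff_map]
    exact eval₂_iotaR_mem_polyRing _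
  · refine mem_VcSet_of_rep W' (V₂ ^ d) hV₂d ?_
    rw [hW', hWphi, map_pow]
    ring
  · rw [Polynomial.derivative_map]
    exact hder0
  · rw [Polynomial.derivative_map]
    refine mem_VcSet_of_rep (V₂ ^ d) Z hZrho ?_
    rw [hZphi, map_pow]
    field_simp

/-- **G-SEP**, in the exact shape of the field `Alg.GoodModel.separable`, for any subring `V`
with underlying set `VcSet M A E`. -/
theorem field_separable_subring (M : ℕ) [NeZero M] {ℓ : ℕ} (hℓ : ℓ.Prime) (hℓM : ¬ ℓ ∣ M)
    {A : ValuationSubring Qb} (hA : A.LiesOverPrime ℓ) (E : IntermediateField ℚ Qb)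
    (V : Subring (Om M)) (hV : (V : Set (Om M)) = VcSet M A E)
    {w : Om M} (hwm : w ∈ Rc M A E)
    (hwg : ∀ r ∈ Rc M A E, r⁻¹ ∉ Rc M A E → r * w⁻¹ ∈ Rc M A E) :
    ∀ f ∈ V, ∃ P : Polynomial (Om M),
      (∀ i, P.coeff i ∈ Alg.polyRing (Rc M A E) (jOm M)) ∧ P.eval f * w⁻¹ ∈ V ∧
      (Polynomial.derivative P).eval f ≠ 0 ∧ ((Polynomial.derivative P).eval f)⁻¹ ∈ V := by
  have hmem : ∀ g : Om M, g ∈ V ↔ g ∈ VcSet M A E := fun g => by
    rw [← hV]
    rfl
  intro f hf
  obtain ⟨P, h1, h2, h3, h4⟩ := field_separable M hℓ hℓM hA E hwm hwg f ((hmem f).mp hf)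
  exact ⟨P, h1, (hmem _).mpr h2, h3, (hmem _).mpr h4⟩

end Main

end Fermat.Agent.S18.H576
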